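/-
S12 programme, brick 750 VELU-DEF, deliverable (D2)  [helper61]:
FIELD-HOMOMORPHISM EQUIVARIANCE of the algebraic Vélu data of `S12P/VeluDef51/Defs.lean`.

`W₀ : WeierstrassCurve R`, `F`, `K` fields over `R`, `f : F →ₐ[R] K`, `Point.map f` Mathlib's induced
homomorphism `(W₀⁄F).Point →+ (W₀⁄K).Point` (the Prelude's Galois action `σ • P` is
`Point.map σ.toAlgHom`).  Then `xco`, `yco`, `psi2`, `gx`, `tq`, `uq`, `veluT`, `veluW`,
`veluCurve`, `veluX`, `veluY` all commute with `f`.
-/
import Mathlib
import Fermat.Agent.S12P.VeluDef51.Defs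

set_option autoImplicit false
set_option linter.unusedSectionVars false

open WeierstrassCurve
open scoped WeierstrassCurve.Affine

noncomputable section

namespace Fermat.Agent.S12P.VeluDef61

open Fermat.Agent.MAZ.ModInv Fermat.Agent.S12P.VeluDef51

variable {R : Type*} [CommRing R] (W₀ : WeierstrassCurve R)
variable {F K : Type*} [Field F] [Field K] [DecidableEq F] [DecidableEq K]
variable [Algebra R F] [Algebra R K] (f : F →ₐ[R] K)

/-! ### The coefficients -/

theorem baseChange_eq_map : W₀.baseChange K = (W₀.baseChange F).map (f : F →+* K) :=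
  (WeierstrassCurve.map_baseChange (R := R) (S := R) W₀ f).symm

theorem a₁_baseChange : (W₀.baseChange K).a₁ = f (W₀.baseChange F).a₁ := by
  rw [baseChange_eq_map W₀ f]; rfl

theorem a₂_baseChange : (W₀.baseChange K).a₂ = f (W₀.baseChange F).a₂ := by
  rw [baseChange_eq_map W₀ f]; rfl

theorem a₃_baseChange : (W₀.baseChange K).a₃ = f (W₀.baseChange F).a₃ := by
  rw [baseChange_eq_map W₀ f]; rfl

theorem a₄_baseChange : (W₀.baseChange K).a₄ = f (W₀.baseChange F).a₄ := by
  rw [baseChange_eq_map W₀ f]; rfl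

theorem a₆_baseChange : (W₀.baseChange K).a₆ = f (W₀.baseChange F).a₆ := by
  rw [baseChange_eq_map W₀ f]; rfl

theorem b₂_baseChange : (W₀.baseChange K).b₂ = f (W₀.baseChange F).b₂ := by
  rw [baseChange_eq_map W₀ f, WeierstrassCurve.map_b₂]; rfl

theorem b₄_baseChange : (W₀.baseChange K).b₄ = f (W₀.baseChange F).b₄ := by
  rw [baseChange_eq_map W₀ f, WeierstrassCurve.map_b₄]; rfl

/-! ### Pointwise quantities -/

variable {W₀}

theorem xco_map (P : (W₀⁄F).Point) :
    xco (W₀.baseChange K) (Affine.Point.map f P) = f (xco (W₀.baseChange F) P) := by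
  cases P with
  | zero => exact (map_zero f).symm
  | some x y h => rfl

theorem yco_map (P : (W₀⁄F).Point) :
    yco (W₀.baseChange K) (Affine.Point.map f P) = f (yco (W₀.baseChange F) P) := by
  cases P with
  | zero => exact (map_zero f).symm
  | some x y h => rfl

theorem psi2_map (P : (W₀⁄F).Point) :
    psi2 (W₀.baseChange K) (Affine.Point.map f P) = f (psi2 (W₀.baseChange F) P) := by
  cases P with
  | zero => exact (map_zero f).symm
  | some x y h =>
    rw [Affine.Point.map_some, psi2_some, psi2_some, a₁_baseChange W₀ f, a₃_baseChange W₀ f]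
    simp only [map_add, map_mul, map_ofNat]

theorem gx_map (P : (W₀⁄F).Point) :
    gx (W₀.baseChange K) (Affine.Point.map f P) = f (gx (W₀.baseChange F) P) := by
  simp only [gx, xco_map, yco_map, a₁_baseChange W₀ f, a₂_baseChange W₀ f, a₄_baseChange W₀ f,
    map_add, map_sub, map_mul, map_pow, map_ofNat]

theorem tq_map (P : (W₀⁄F).Point) :
    tq (W₀.baseChange K) (Affine.Point.map f P) = f (tq (W₀.baseChange F) P) := by
  simp only [tq, xco_map, b₂_baseChange W₀ f, b₄_baseChange W₀ f,
    map_add, map_mul, map_pow, map_ofNat]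

theorem uq_map (P : (W₀⁄F).Point) :
    uq (W₀.baseChange K) (Affine.Point.map f P) = f (uq (W₀.baseChange F) P) := by
  simp only [uq, psi2_map, map_pow]

/-! ### Vélu's `t`, `w`, the curve and the isogeny coordinates -/

theorem veluT_map (Q : (W₀⁄F).Point) (p : ℕ) :
    veluT (W₀.baseChange K) (Affine.Point.map f Q) p = f (veluT (W₀.baseChange F) Q p) := by
  simp only [veluT, map_sum, ← map_nsmul, gx_map]

theorem veluW_map (Q : (W₀⁄F).Point) (p : ℕ) :
    veluW (W₀.baseChange K) (Affine.Point.map f Q) p = f (veluW (W₀.baseChange F) Q p) := by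
  simp only [veluW, map_sum, ← map_nsmul, gx_map, xco_map, yco_map, psi2_map, map_add, map_mul]

theorem veluCurve_map (Q : (W₀⁄F).Point) (p : ℕ) :
    veluCurve (W₀.baseChange K) (Affine.Point.map f Q) p =
      (veluCurve (W₀.baseChange F) Q p).map (f : F →+* K) := by
  ext
  · exact a₁_baseChange W₀ f
  · exact a₂_baseChange W₀ f
  · exact a₃_baseChange W₀ f
  · show (W₀.baseChange K).a₄ - 5 * veluT (W₀.baseChange K) (Affine.Point.map f Q) p =
      f ((W₀.baseChange F).a₄ - 5 * veluT (W₀.baseChange F) Q p)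
    rw [veluT_map, a₄_baseChange W₀ f]
    simp only [map_sub, map_mul, map_ofNat]
  · show (W₀.baseChange K).a₆ - (W₀.baseChange K).b₂ * veluT (W₀.baseChange K)
        (Affine.Point.map f Q) p - 7 * veluW (W₀.baseChange K) (Affine.Point.map f Q) p =
      f ((W₀.baseChange F).a₆ - (W₀.baseChange F).b₂ * veluT (W₀.baseChange F) Q p -
        7 * veluW (W₀.baseChange F) Q p)
    rw [veluT_map, veluW_map, a₆_baseChange W₀ f, b₂_baseChange W₀ f]
    simp only [map_sub, map_mul, map_ofNat]

theorem veluX_map (Q : (W₀⁄F).Point) (p : ℕ) (P : (W₀⁄F).Point) :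
    veluX (W₀.baseChange K) (Affine.Point.map f Q) p (Affine.Point.map f P) =
      f (veluX (W₀.baseChange F) Q p P) := by
  simp only [veluX, map_add, map_sum, map_sub, ← map_nsmul, ← xco_map]

theorem veluY_map (Q : (W₀⁄F).Point) (p : ℕ) (P : (W₀⁄F).Point) :
    veluY (W₀.baseChange K) (Affine.Point.map f Q) p (Affine.Point.map f P) =
      f (veluY (W₀.baseChange F) Q p P) := by
  simp only [veluY, map_add, map_sum, map_sub, ← map_nsmul, ← yco_map]

end Fermat.Agent.S12P.VeluDef61
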