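/-
S12 programme, brick 750 VELU-DEF, deliverables (D2') and (D2'')  [helper61]:

* (D2') GENERATOR INDEPENDENCE: for `p` prime, `p • Q = 0` and `¬ p ∣ j`, the Vélu data of the
  generator `j • Q` coincide with those of `Q` (`veluT`, `veluW`, `veluCurve`, `veluX`, `veluY`);
* (D2'') KERNEL-TRANSLATION INVARIANCE: for `0 < p`, `p • Q = 0`:
  `veluX V Q p (R + Q) = veluX V Q p R`, hence invariance under `R ↦ R + n • Q` (`n : ℕ` or `ℤ`);
  same for `veluY`.

Everything is deduced from two general reindexing lemmas for sums over `Finset.Ico 1 p` resp.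
`Finset.range p` of functions of `k • Q` in an additive group.
-/
import Mathlib
import Fermat.Agent.S12P.VeluDef51.Defs

set_option autoImplicit false
set_option linter.unusedSectionVars false

open WeierstrassCurve

noncomputable section

namespace Fermat.Agent.S12P.VeluDef61

open Fermat.Agent.MAZ.ModInv Fermat.Agent.S12P.VeluDef51

/-! ### General reindexing lemmas -/

section General

variable {G : Type*} [AddGroup G] {M : Type*} [AddCommMonoid M]

theorem mod_nsmul_of_nsmul_eq_zero {Q : G} {p : ℕ} (hQ : p • Q = 0) (k : ℕ) :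
    (k % p) • Q = k • Q := by
  conv_rhs => rw [← Nat.mod_add_div k p]
  rw [add_nsmul, mul_nsmul, hQ, nsmul_zero, add_zero]

/-- Multiplication by `j` prime to `p` permutes the nonzero multiples of a point of order
dividing `p`. -/
theorem sum_Ico_nsmul_nsmul (g : G → M) {Q : G} {p : ℕ} (hp : p.Prime) (hQ : p • Q = 0) {j : ℕ}
    (hj : ¬ p ∣ j) :
    ∑ k ∈ Finset.Ico 1 p, g (k • (j • Q)) = ∑ k ∈ Finset.Ico 1 p, g (k • Q) := by
  have hcop : Nat.Coprime j p := ((Nat.Prime.coprime_iff_not_dvd hp).mpr hj).symm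
  obtain ⟨j', -, hj'⟩ := Nat.exists_mul_mod_eq_one_of_coprime hcop hp.one_lt
  have hj'p : ¬ p ∣ j' := by
    intro h
    have : j * j' % p = 0 := Nat.mod_eq_zero_of_dvd (Dvd.dvd.mul_left h j)
    omega
  have hmem : ∀ (i : ℕ), ¬ p ∣ i → ∀ k ∈ Finset.Ico 1 p, k * i % p ∈ Finset.Ico 1 p := by
    intro i hi k hk
    rw [Finset.mem_Ico] at hk ⊢
    refine ⟨?_, Nat.mod_lt _ hp.pos⟩
    rw [Nat.one_le_iff_ne_zero]
    intro h0
    have hdvd : p ∣ k * i := Nat.dvd_of_mod_eq_zero h0
    rcases (Nat.Prime.dvd_mul hp).mp hdvd with h | h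
    · exact absurd (Nat.le_of_dvd (by omega) h) (by omega)
    · exact hi h
  have hinv : ∀ (i i' : ℕ), i * i' % p = 1 → ∀ k ∈ Finset.Ico 1 p, k * i % p * i' % p = k := by
    intro i i' hii' k hk
    rw [Finset.mem_Ico] at hk
    rw [Nat.mod_mul_mod, mul_assoc, Nat.mul_mod, hii', mul_one, Nat.mod_mod,
      Nat.mod_eq_of_lt hk.2]
  refine Finset.sum_nbij' (fun k => k * j % p) (fun k => k * j' % p) (hmem j hj) (hmem j' hj'p)
    (hinv j j' hj') (hinv j' j (by rw [mul_comm]; exact hj')) ?_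
  intro k _
  rw [mod_nsmul_of_nsmul_eq_zero hQ, mul_nsmul']

/-- Shifting the index of a full period sum. -/
theorem sum_range_succ_nsmul (g : G → M) {Q : G} {p : ℕ} (hQ : p • Q = 0) :
    ∑ k ∈ Finset.range p, g ((k + 1) • Q) = ∑ k ∈ Finset.range p, g (k • Q) := by
  rcases Nat.eq_zero_or_pos p with rfl | hp
  · simp
  obtain ⟨n, rfl⟩ : ∃ n, p = n + 1 := ⟨p - 1, by omega⟩
  rw [Finset.sum_range_succ, Finset.sum_range_succ' (fun k => g (k • Q)), hQ, zero_nsmul]

end General

/-! ### (D2') generator independence -/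

section GeneratorIndependence

variable {F : Type*} [Field F] [DecidableEq F] (V : WeierstrassCurve F)
variable {Q : V.toAffine.Point} {p : ℕ} (hp : p.Prime) (hQ : p • Q = 0) {j : ℕ} (hj : ¬ p ∣ j)

include hp hQ hj

theorem veluT_nsmul : veluT V (j • Q) p = veluT V Q p :=
  sum_Ico_nsmul_nsmul (fun P => gx V P) hp hQ hj

theorem veluW_nsmul : veluW V (j • Q) p = veluW V Q p :=
  sum_Ico_nsmul_nsmul (fun P => xco V P * gx V P + yco V P * psi2 V P) hp hQ hj

theorem veluCurve_nsmul : veluCurve V (j • Q) p = veluCurve V Q p := by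
  rw [veluCurve, veluCurve, veluT_nsmul V hp hQ hj, veluW_nsmul V hp hQ hj]

theorem veluX_nsmul (R : V.toAffine.Point) : veluX V (j • Q) p R = veluX V Q p R := by
  rw [veluX, veluX]
  congr 1
  exact sum_Ico_nsmul_nsmul (fun P => xco V (R + P) - xco V P) hp hQ hj

theorem veluY_nsmul (R : V.toAffine.Point) : veluY V (j • Q) p R = veluY V Q p R := by
  rw [veluY, veluY]
  congr 1
  exact sum_Ico_nsmul_nsmul (fun P => yco V (R + P) - yco V P) hp hQ hj

end GeneratorIndependence

/-! ### (D2'') kernel-translation invariance -/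

section TranslationGeneral

variable {G : Type*} [AddCommGroup G] {M : Type*} [AddCommGroup M] (c : G → M)
variable {Q : G} {p : ℕ}

/-- A Vélu-type sum as a full-period sum. -/
theorem veluSum_eq_sum_range (hp : 0 < p) (R : G) :
    c R + ∑ k ∈ Finset.Ico 1 p, (c (R + k • Q) - c (k • Q)) =
      ∑ k ∈ Finset.range p, c (R + k • Q) - ∑ k ∈ Finset.Ico 1 p, c (k • Q) := by
  rw [Finset.sum_sub_distrib, Finset.range_eq_Ico, Finset.sum_eq_sum_Ico_succ_bot hp,
    zero_nsmul, add_zero]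
  abel

theorem veluSum_add_self (hp : 0 < p) (hQ : p • Q = 0) (R : G) :
    c (R + Q) + ∑ k ∈ Finset.Ico 1 p, (c (R + Q + k • Q) - c (k • Q)) =
      c R + ∑ k ∈ Finset.Ico 1 p, (c (R + k • Q) - c (k • Q)) := by
  rw [veluSum_eq_sum_range c hp, veluSum_eq_sum_range c hp]
  congr 1
  have h := sum_range_succ_nsmul (fun P => c (R + P)) hQ
  rw [← h]
  refine Finset.sum_congr rfl fun k _ => ?_
  rw [succ_nsmul, add_assoc, add_comm Q]

theorem veluSum_add_nsmul (hp : 0 < p) (hQ : p • Q = 0) (R : G) (n : ℕ) :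
    c (R + n • Q) + ∑ k ∈ Finset.Ico 1 p, (c (R + n • Q + k • Q) - c (k • Q)) =
      c R + ∑ k ∈ Finset.Ico 1 p, (c (R + k • Q) - c (k • Q)) := by
  induction n with
  | zero => rw [zero_nsmul, add_zero]
  | succ n ih => rw [succ_nsmul, ← add_assoc, veluSum_add_self c hp hQ, ih]

theorem zsmul_eq_toNat_nsmul (hp : 0 < p) (hQ : p • Q = 0) (n : ℤ) :
    n • Q = (n % (p : ℤ)).toNat • Q := by
  have hpz : (p : ℤ) ≠ 0 := by exact_mod_cast hp.ne'
  have h1 : 0 ≤ n % (p : ℤ) := Int.emod_nonneg n hpz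
  conv_lhs => rw [← Int.emod_add_mul_ediv n p]
  rw [add_zsmul, mul_zsmul, natCast_zsmul, smul_comm, hQ, smul_zero, add_zero]
  conv_lhs => rw [← Int.toNat_of_nonneg h1]
  rw [natCast_zsmul]

theorem veluSum_add_zsmul (hp : 0 < p) (hQ : p • Q = 0) (R : G) (n : ℤ) :
    c (R + n • Q) + ∑ k ∈ Finset.Ico 1 p, (c (R + n • Q + k • Q) - c (k • Q)) =
      c R + ∑ k ∈ Finset.Ico 1 p, (c (R + k • Q) - c (k • Q)) := by
  rw [zsmul_eq_toNat_nsmul hp hQ, veluSum_add_nsmul c hp hQ]

end TranslationGeneral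

section Translation

variable {F : Type*} [Field F] [DecidableEq F] (V : WeierstrassCurve F)
variable {Q : V.toAffine.Point} {p : ℕ} (hp : 0 < p) (hQ : p • Q = 0)

include hp hQ

theorem veluX_add_self (R : V.toAffine.Point) : veluX V Q p (R + Q) = veluX V Q p R :=
  veluSum_add_self (xco V) hp hQ R

theorem veluX_add_nsmul (R : V.toAffine.Point) (n : ℕ) :
    veluX V Q p (R + n • Q) = veluX V Q p R :=
  veluSum_add_nsmul (xco V) hp hQ R n

theorem veluX_add_zsmul (R : V.toAffine.Point) (n : ℤ) :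
    veluX V Q p (R + n • Q) = veluX V Q p R :=
  veluSum_add_zsmul (xco V) hp hQ R n

theorem veluY_add_self (R : V.toAffine.Point) : veluY V Q p (R + Q) = veluY V Q p R :=
  veluSum_add_self (yco V) hp hQ R

theorem veluY_add_nsmul (R : V.toAffine.Point) (n : ℕ) :
    veluY V Q p (R + n • Q) = veluY V Q p R :=
  veluSum_add_nsmul (yco V) hp hQ R n

theorem veluY_add_zsmul (R : V.toAffine.Point) (n : ℤ) :
    veluY V Q p (R + n • Q) = veluY V Q p R :=
  veluSum_add_zsmul (yco V) hp hQ R n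

/-- Invariance under translation by any element of the kernel `⟨Q⟩`. -/
theorem veluX_add_of_mem_zmultiples (R : V.toAffine.Point) {T : V.toAffine.Point}
    (hT : T ∈ AddSubgroup.zmultiples Q) : veluX V Q p (R + T) = veluX V Q p R := by
  obtain ⟨n, rfl⟩ := AddSubgroup.mem_zmultiples_iff.mp hT
  exact veluX_add_zsmul V hp hQ R n

theorem veluY_add_of_mem_zmultiples (R : V.toAffine.Point) {T : V.toAffine.Point}
    (hT : T ∈ AddSubgroup.zmultiples Q) : veluY V Q p (R + T) = veluY V Q p R := by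
  obtain ⟨n, rfl⟩ := AddSubgroup.mem_zmultiples_iff.mp hT
  exact veluY_add_zsmul V hp hQ R n

end Translation

end Fermat.Agent.S12P.VeluDef61
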