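/-
S12 programme, brick 750 VELU-DEF, COROLLARY of (D2) + (D2') + (D2'')  [helper61]:
GALOIS INVARIANCE of the Vélu data of a STABLE cyclic kernel.

`W₀ : WeierstrassCurve R`, `K` a field over `R`, `Q : (W₀⁄K).Point` with `p • Q = 0`, `Q ≠ 0`,
`p` prime, `f : K →ₐ[R] K` (e.g. `σ.toAlgHom`, `σ ∈ Gal`) with `f(Q) ∈ ⟨Q⟩`.  Then
* `f (veluT E Q p) = veluT E Q p`, `f (veluW E Q p) = veluW E Q p`,
  `(veluCurve E Q p).map f = veluCurve E Q p`;
* if moreover `f(P) - P ∈ ⟨Q⟩` then `f (veluX E Q p P) = veluX E Q p P`, same for `veluY`.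
The `σ • Q` forms (the Prelude's Galois action on points) are stated at the end.
-/
import Mathlib
import Fermat.Prelude.Def_FLTPrelim_GaloisRep
import Fermat.Agent.S12P.VeluDef61.Equivariance
import Fermat.Agent.S12P.VeluDef61.Reindex

set_option autoImplicit false
set_option linter.unusedSectionVars false

open WeierstrassCurve
open scoped WeierstrassCurve.Affine

noncomputable section

namespace Fermat.Agent.S12P.VeluDef61

open Fermat.Agent.MAZ.ModInv Fermat.Agent.S12P.VeluDef51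

variable {R : Type*} [CommRing R] {W₀ : WeierstrassCurve R}
variable {K : Type*} [Field K] [DecidableEq K] [Algebra R K]

section AlgHom

variable (f : K →ₐ[R] K) {Q : (W₀⁄K).Point} {p : ℕ} (hp : p.Prime) (hQ : p • Q = 0) (hQ0 : Q ≠ 0)
  (hf : Affine.Point.map f Q ∈ AddSubgroup.zmultiples Q)

include hp hQ hQ0 hf

/-- The image of the generator is a multiple `j • Q` with `p ∤ j`. -/
theorem exists_map_eq_nsmul : ∃ j : ℕ, ¬ p ∣ j ∧ Affine.Point.map f Q = j • Q := by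
  obtain ⟨n, hn⟩ := AddSubgroup.mem_zmultiples_iff.mp hf
  refine ⟨(n % (p : ℤ)).toNat, ?_, ?_⟩
  · rintro ⟨m, hm⟩
    apply hQ0
    apply Affine.Point.map_injective f
    rw [← hn, zsmul_eq_toNat_nsmul hp.pos hQ, hm, mul_nsmul, hQ, nsmul_zero, map_zero]
  · rw [← hn, zsmul_eq_toNat_nsmul hp.pos hQ]

theorem map_veluT : f (veluT (W₀.baseChange K) Q p) = veluT (W₀.baseChange K) Q p := by
  obtain ⟨j, hj, hfj⟩ := exists_map_eq_nsmul f hp hQ hQ0 hf
  rw [← veluT_map, hfj, veluT_nsmul _ hp hQ hj]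

theorem map_veluW : f (veluW (W₀.baseChange K) Q p) = veluW (W₀.baseChange K) Q p := by
  obtain ⟨j, hj, hfj⟩ := exists_map_eq_nsmul f hp hQ hQ0 hf
  rw [← veluW_map, hfj, veluW_nsmul _ hp hQ hj]

theorem map_veluCurve :
    (veluCurve (W₀.baseChange K) Q p).map (f : K →+* K) = veluCurve (W₀.baseChange K) Q p := by
  obtain ⟨j, hj, hfj⟩ := exists_map_eq_nsmul f hp hQ hQ0 hf
  rw [← veluCurve_map, hfj, veluCurve_nsmul _ hp hQ hj]

theorem map_veluX {P : (W₀⁄K).Point}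
    (hP : Affine.Point.map f P - P ∈ AddSubgroup.zmultiples Q) :
    f (veluX (W₀.baseChange K) Q p P) = veluX (W₀.baseChange K) Q p P := by
  obtain ⟨j, hj, hfj⟩ := exists_map_eq_nsmul f hp hQ hQ0 hf
  rw [← veluX_map, hfj, veluX_nsmul _ hp hQ hj]
  have h := veluX_add_of_mem_zmultiples (W₀.baseChange K) hp.pos hQ P hP
  rwa [add_sub_cancel] at h

theorem map_veluY {P : (W₀⁄K).Point}
    (hP : Affine.Point.map f P - P ∈ AddSubgroup.zmultiples Q) :
    f (veluY (W₀.baseChange K) Q p P) = veluY (W₀.baseChange K) Q p P := by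
  obtain ⟨j, hj, hfj⟩ := exists_map_eq_nsmul f hp hQ hQ0 hf
  rw [← veluY_map, hfj, veluY_nsmul _ hp hQ hj]
  have h := veluY_add_of_mem_zmultiples (W₀.baseChange K) hp.pos hQ P hP
  rwa [add_sub_cancel] at h

end AlgHom

/-! ### The `σ • Q` forms -/

section Galois

variable (σ : K ≃ₐ[R] K) {Q : (W₀⁄K).Point} {p : ℕ} (hp : p.Prime) (hQ : p • Q = 0) (hQ0 : Q ≠ 0)
  (hσ : σ • Q ∈ AddSubgroup.zmultiples Q)

include hp hQ hQ0 hσ

theorem galois_veluT : σ (veluT (W₀.baseChange K) Q p) = veluT (W₀.baseChange K) Q p :=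
  map_veluT σ.toAlgHom hp hQ hQ0 hσ

theorem galois_veluW : σ (veluW (W₀.baseChange K) Q p) = veluW (W₀.baseChange K) Q p :=
  map_veluW σ.toAlgHom hp hQ hQ0 hσ

theorem galois_veluCurve :
    (veluCurve (W₀.baseChange K) Q p).map ((σ : K →ₐ[R] K) : K →+* K) =
      veluCurve (W₀.baseChange K) Q p :=
  map_veluCurve σ.toAlgHom hp hQ hQ0 hσ

theorem galois_veluX {P : (W₀⁄K).Point} (hP : σ • P - P ∈ AddSubgroup.zmultiples Q) :
    σ (veluX (W₀.baseChange K) Q p P) = veluX (W₀.baseChange K) Q p P :=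
  map_veluX σ.toAlgHom hp hQ hQ0 hσ hP

theorem galois_veluY {P : (W₀⁄K).Point} (hP : σ • P - P ∈ AddSubgroup.zmultiples Q) :
    σ (veluY (W₀.baseChange K) Q p P) = veluY (W₀.baseChange K) Q p P :=
  map_veluY σ.toAlgHom hp hQ hQ0 hσ hP

end Galois

end Fermat.Agent.S12P.VeluDef61
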