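/-
S12 programme, brick 750 VELU-DEF, deliverable (D1)  [helper61]: HALF-SUM FORMS.

`p = 2m + 1`, `p • Q = 0`, `k • Q ≠ 0` for `0 < k < p`.  Pairing `k ↔ p - k`:
* `veluT V Q p = ∑_{k=1}^m t(k•Q)`,  `t(R) = 6x² + b₂x + b₄`;
* `veluW V Q p = ∑_{k=1}^m (u(k•Q) + x(k•Q) t(k•Q))`,  `u(R) = ψ₂(R)²`;
* if `12 ≠ 0` in `F`: `(veluCurve V Q p).c₄ = ModInv.c4q V Q p`.
-/
import Mathlib
import Fermat.Agent.S12P.VeluDef51.Defs

set_option autoImplicit false
set_option linter.unusedSectionVars false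

open WeierstrassCurve

noncomputable section

namespace Fermat.Agent.S12P.VeluDef61

open Fermat.Agent.MAZ.ModInv Fermat.Agent.S12P.VeluDef51

/-! ### The general pairing lemma -/

section General

variable {G : Type*} [AddGroup G] {M : Type*} [AddCommMonoid M]

theorem sub_nsmul_eq_neg {Q : G} {p : ℕ} (hQ : p • Q = 0) {k : ℕ} (hk : k ≤ p) :
    (p - k) • Q = -(k • Q) := by
  rw [eq_neg_iff_add_eq_zero, ← add_nsmul, Nat.sub_add_cancel hk, hQ]

/-- Pairing `k ↔ p - k` in a sum over the nonzero multiples of a point of odd order `p = 2m+1`. -/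
theorem sum_Ico_eq_sum_half (g : G → M) {Q : G} {m : ℕ} (hQ : (2 * m + 1) • Q = 0) :
    ∑ k ∈ Finset.Ico 1 (2 * m + 1), g (k • Q) =
      ∑ k ∈ Finset.Ico 1 (m + 1), (g (k • Q) + g (-(k • Q))) := by
  rw [← Finset.sum_Ico_consecutive (fun k => g (k • Q)) (show 1 ≤ m + 1 by omega)
    (show m + 1 ≤ 2 * m + 1 by omega), Finset.sum_add_distrib]
  congr 1
  have h := Finset.sum_Ico_reflect (fun k => g (k • Q)) 1 (m := m + 1) (n := 2 * m + 1)
    (by omega)
  have e1 : 2 * m + 1 + 1 - (m + 1) = m + 1 := by omega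
  have e2 : 2 * m + 1 + 1 - 1 = 2 * m + 1 := by omega
  rw [e1, e2] at h
  rw [← h]
  refine Finset.sum_congr rfl fun k hk => ?_
  rw [Finset.mem_Ico] at hk
  rw [sub_nsmul_eq_neg hQ (by omega)]

end General

/-! ### Coordinates of the opposite point -/

section Neg

variable {F : Type*} [Field F] [DecidableEq F] (V : WeierstrassCurve F)

theorem xco_neg (R : V.toAffine.Point) : xco V (-R) = xco V R := by
  cases R with
  | zero => rfl
  | some x y h => rfl

theorem tq_neg (R : V.toAffine.Point) : tq V (-R) = tq V R := by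
  rw [tq, tq, xco_neg]

end Neg

/-! ### (D1) -/

section HalfSum

variable {F : Type*} [Field F] [DecidableEq F] (V : WeierstrassCurve F)
variable {Q : V.toAffine.Point} {m : ℕ} (hQ : (2 * m + 1) • Q = 0)
  (hne : ∀ k, 0 < k → k < 2 * m + 1 → k • Q ≠ 0)

include hQ hne

/-- **Half-sum form of Vélu's `t`.** -/
theorem veluT_eq_half : veluT V Q (2 * m + 1) = ∑ k ∈ Finset.Ico 1 (m + 1), tq V (k • Q) := by
  rw [veluT, sum_Ico_eq_sum_half (fun P => gx V P) hQ]
  refine Finset.sum_congr rfl fun k hk => ?_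
  rw [Finset.mem_Ico] at hk
  exact gx_add_gx_neg V (k • Q) (hne k (by omega) (by omega))

/-- **Half-sum form of Vélu's `w`.** -/
theorem veluW_eq_half : veluW V Q (2 * m + 1) =
    ∑ k ∈ Finset.Ico 1 (m + 1), (uq V (k • Q) + xco V (k • Q) * tq V (k • Q)) := by
  rw [veluW, sum_Ico_eq_sum_half (fun P => xco V P * gx V P + yco V P * psi2 V P) hQ]
  refine Finset.sum_congr rfl fun k hk => ?_
  rw [Finset.mem_Ico] at hk
  have h0 : k • Q ≠ 0 := hne k (by omega) (by omega)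
  have h1 := gx_add_gx_neg V (k • Q) h0
  have h2 := ypsi_add_ypsi_neg V (k • Q) h0
  rw [xco_neg, ← h1, ← h2]
  ring

omit hne in
/-- Sums of even functions of the abscissa over the kernel. -/
theorem sum_Ico_even (h : F → F) :
    ∑ k ∈ Finset.Ico 1 (2 * m + 1), h (xco V (k • Q)) =
      2 * ∑ k ∈ Finset.Ico 1 (m + 1), h (xco V (k • Q)) := by
  rw [sum_Ico_eq_sum_half (fun P => h (xco V P)) hQ, Finset.mul_sum]
  refine Finset.sum_congr rfl fun k _ => ?_
  rw [xco_neg, two_mul]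

/-- **`c₄` of Vélu's curve is the normalised `c₄` of `MAZ/EF86/ModInv`.** -/
theorem veluCurve_c₄_eq_c4q (h12 : (12 : F) ≠ 0) :
    (veluCurve V Q (2 * m + 1)).c₄ = c4q V Q (2 * m + 1) := by
  rw [veluCurve_c₄, veluT_eq_half V hQ hne, c4q,
    sum_Ico_even V hQ (fun x => (x + V.b₂ / 12) ^ 2)]
  have hterm : ∀ x : F, 1440 * (x + V.b₂ / 12) ^ 2 =
      240 * (6 * x ^ 2 + V.b₂ * x + V.b₄) + 10 * V.c₄ := by
    intro x
    rw [WeierstrassCurve.c₄]
    field_simp
    ring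
  have hsum : 1440 * ∑ k ∈ Finset.Ico 1 (m + 1), (xco V (k • Q) + V.b₂ / 12) ^ 2 =
      240 * ∑ k ∈ Finset.Ico 1 (m + 1), tq V (k • Q) + (m : F) * (10 * V.c₄) := by
    rw [Finset.mul_sum, Finset.mul_sum]
    have hc : (m : F) * (10 * V.c₄) = ∑ _k ∈ Finset.Ico 1 (m + 1), (10 * V.c₄) := by
      rw [Finset.sum_const, Nat.card_Ico, nsmul_eq_mul]
      simp
    rw [hc, ← Finset.sum_add_distrib]
    refine Finset.sum_congr rfl fun k _ => ?_
    rw [hterm, tq]
  push_cast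
  linear_combination -hsum

theorem veluCurve_c₄_eq_c4q_of_charZero [CharZero F] :
    (veluCurve V Q (2 * m + 1)).c₄ = c4q V Q (2 * m + 1) :=
  veluCurve_c₄_eq_c4q V hQ hne (by norm_num)

end HalfSum

end Fermat.Agent.S12P.VeluDef61
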