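/-
S12 programme, brick 750 VELU-DEF, deliverable (D3)  [helper61]: INTEGRALITY and CONGRUENCE.

* `A : Subring F` containing `a₁, a₂, a₃, a₄, a₆` and the coordinates of the kernel points
  `k • Q`, `0 < k < p`: then `veluT`, `veluW` and all coefficients of `veluCurve` lie in `A`;
* `A : ValuationSubring F` as above, and moreover `A.valuation (gx (k•Q)) < 1`,
  `A.valuation (ψ₂ (k•Q)) < 1` for `0 < k < p` (every kernel point reduces to a singular point):
  then `A.valuation veluT < 1`, `A.valuation veluW < 1`, hence `veluCurve ≡ V` coefficientwise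
  modulo the maximal ideal.
-/
import Mathlib
import Fermat.Agent.S12P.VeluDef51.Defs

set_option autoImplicit false
set_option linter.unusedSectionVars false

open WeierstrassCurve

noncomputable section

namespace Fermat.Agent.S12P.VeluDef61

open Fermat.Agent.MAZ.ModInv Fermat.Agent.S12P.VeluDef51

variable {F : Type*} [Field F] [DecidableEq F] (V : WeierstrassCurve F)

/-! ### Pointwise -/

section Pointwise

variable (A : Subring F)

theorem psi2_mem_of_mem (ha₁ : V.a₁ ∈ A) (ha₃ : V.a₃ ∈ A) {R : V.toAffine.Point}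
    (hx : xco V R ∈ A) (hy : yco V R ∈ A) : psi2 V R ∈ A := by
  cases R with
  | zero => exact A.zero_mem
  | some x y h =>
    rw [psi2_some]
    rw [xco_some] at hx
    rw [yco_some] at hy
    exact A.add_mem (A.add_mem (A.mul_mem (by exact_mod_cast natCast_mem A 2) hy)
      (A.mul_mem ha₁ hx)) ha₃

theorem gx_mem_of_mem (ha₁ : V.a₁ ∈ A) (ha₂ : V.a₂ ∈ A) (ha₄ : V.a₄ ∈ A) {R : V.toAffine.Point}
    (hx : xco V R ∈ A) (hy : yco V R ∈ A) : gx V R ∈ A := by
  rw [gx]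
  have h3 : (3 : F) ∈ A := by exact_mod_cast natCast_mem A 3
  have h2 : (2 : F) ∈ A := by exact_mod_cast natCast_mem A 2
  exact A.sub_mem (A.add_mem (A.add_mem (A.mul_mem h3 (A.pow_mem hx 2))
    (A.mul_mem (A.mul_mem h2 ha₂) hx)) ha₄) (A.mul_mem ha₁ hy)

theorem b₂_mem_of_mem (ha₁ : V.a₁ ∈ A) (ha₂ : V.a₂ ∈ A) : V.b₂ ∈ A := by
  rw [WeierstrassCurve.b₂]
  have h4 : (4 : F) ∈ A := by exact_mod_cast natCast_mem A 4
  exact A.add_mem (A.pow_mem ha₁ 2) (A.mul_mem h4 ha₂)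

end Pointwise

/-! ### Integrality -/

section Integrality

variable (A : Subring F) {Q : V.toAffine.Point} {p : ℕ}
  (ha₁ : V.a₁ ∈ A) (ha₂ : V.a₂ ∈ A) (ha₃ : V.a₃ ∈ A) (ha₄ : V.a₄ ∈ A) (ha₆ : V.a₆ ∈ A)
  (hx : ∀ k, 0 < k → k < p → xco V (k • Q) ∈ A) (hy : ∀ k, 0 < k → k < p → yco V (k • Q) ∈ A)

include ha₁ ha₂ ha₄ hx hy in
theorem veluT_mem : veluT V Q p ∈ A := by
  refine A.sum_mem fun k hk => ?_
  rw [Finset.mem_Ico] at hk
  exact gx_mem_of_mem V A ha₁ ha₂ ha₄ (hx k (by omega) hk.2) (hy k (by omega) hk.2)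

include ha₁ ha₂ ha₃ ha₄ hx hy in
theorem veluW_mem : veluW V Q p ∈ A := by
  refine A.sum_mem fun k hk => ?_
  rw [Finset.mem_Ico] at hk
  have hxk := hx k (by omega) hk.2
  have hyk := hy k (by omega) hk.2
  exact A.add_mem (A.mul_mem hxk (gx_mem_of_mem V A ha₁ ha₂ ha₄ hxk hyk))
    (A.mul_mem hyk (psi2_mem_of_mem V A ha₁ ha₃ hxk hyk))

include ha₁ ha₂ ha₃ ha₄ ha₆ hx hy in
/-- **Integrality of Vélu's curve.** -/
theorem veluCurve_mem :
    (veluCurve V Q p).a₁ ∈ A ∧ (veluCurve V Q p).a₂ ∈ A ∧ (veluCurve V Q p).a₃ ∈ A ∧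
      (veluCurve V Q p).a₄ ∈ A ∧ (veluCurve V Q p).a₆ ∈ A := by
  have hT := veluT_mem V A ha₁ ha₂ ha₄ hx hy
  have hW := veluW_mem V A ha₁ ha₂ ha₃ ha₄ hx hy
  have h5 : (5 : F) ∈ A := by exact_mod_cast natCast_mem A 5
  have h7 : (7 : F) ∈ A := by exact_mod_cast natCast_mem A 7
  refine ⟨ha₁, ha₂, ha₃, ?_, ?_⟩
  · rw [veluCurve_a₄]
    exact A.sub_mem ha₄ (A.mul_mem h5 hT)
  · rw [veluCurve_a₆]
    exact A.sub_mem (A.sub_mem ha₆ (A.mul_mem (b₂_mem_of_mem V A ha₁ ha₂) hT)) (A.mul_mem h7 hW)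

end Integrality

/-! ### Congruence modulo the maximal ideal of a valuation ring -/

section Congruence

variable (A : ValuationSubring F) {Q : V.toAffine.Point} {p : ℕ}
  (ha₁ : V.a₁ ∈ A) (ha₂ : V.a₂ ∈ A)
  (hx : ∀ k, 0 < k → k < p → xco V (k • Q) ∈ A) (hy : ∀ k, 0 < k → k < p → yco V (k • Q) ∈ A)
  (hg : ∀ k, 0 < k → k < p → A.valuation (gx V (k • Q)) < 1)
  (hψ : ∀ k, 0 < k → k < p → A.valuation (psi2 V (k • Q)) < 1)

include hg in
theorem valuation_veluT_lt_one : A.valuation (veluT V Q p) < 1 := by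
  refine A.valuation.map_sum_lt one_ne_zero fun k hk => ?_
  rw [Finset.mem_Ico] at hk
  exact hg k (by omega) hk.2

include hx hy hg hψ in
theorem valuation_veluW_lt_one : A.valuation (veluW V Q p) < 1 := by
  refine A.valuation.map_sum_lt one_ne_zero fun k hk => ?_
  rw [Finset.mem_Ico] at hk
  have hxk := (A.valuation_le_one_iff _).mpr (hx k (by omega) hk.2)
  have hyk := (A.valuation_le_one_iff _).mpr (hy k (by omega) hk.2)
  refine A.valuation.map_add_lt ?_ ?_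
  · rw [map_mul]
    exact mul_lt_one_of_nonneg_of_lt_one_right hxk zero_le (hg k (by omega) hk.2)
  · rw [map_mul]
    exact mul_lt_one_of_nonneg_of_lt_one_right hyk zero_le (hψ k (by omega) hk.2)

include hg in
/-- `a₄' ≡ a₄` modulo the maximal ideal. -/
theorem valuation_a₄_sub_lt_one : A.valuation ((veluCurve V Q p).a₄ - V.a₄) < 1 := by
  rw [veluCurve_a₄, sub_sub_cancel_left, Valuation.map_neg, map_mul]
  have h5 : A.valuation (5 : F) ≤ 1 :=
    (A.valuation_le_one_iff _).mpr (by exact_mod_cast natCast_mem A 5)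
  exact mul_lt_one_of_nonneg_of_lt_one_right h5 zero_le (valuation_veluT_lt_one V A hg)

include ha₁ ha₂ hx hy hg hψ in
/-- `a₆' ≡ a₆` modulo the maximal ideal. -/
theorem valuation_a₆_sub_lt_one : A.valuation ((veluCurve V Q p).a₆ - V.a₆) < 1 := by
  have e : (veluCurve V Q p).a₆ - V.a₆ = -(V.b₂ * veluT V Q p) + -(7 * veluW V Q p) := by
    rw [veluCurve_a₆]; ring
  rw [e]
  have h7 : A.valuation (7 : F) ≤ 1 :=
    (A.valuation_le_one_iff _).mpr (by exact_mod_cast natCast_mem A 7)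
  have hb₂ : A.valuation V.b₂ ≤ 1 :=
    (A.valuation_le_one_iff _).mpr (b₂_mem_of_mem V A.toSubring ha₁ ha₂)
  refine A.valuation.map_add_lt ?_ ?_
  · rw [Valuation.map_neg, map_mul]
    exact mul_lt_one_of_nonneg_of_lt_one_right hb₂ zero_le (valuation_veluT_lt_one V A hg)
  · rw [Valuation.map_neg, map_mul]
    exact mul_lt_one_of_nonneg_of_lt_one_right h7 zero_le
      (valuation_veluW_lt_one V A hx hy hg hψ)

end Congruence

end Fermat.Agent.S12P.VeluDef61
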