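/-
S12 programme, brick RAT (for K-ASM)  [helper61]: RATIONALITY OF THE HALF-PRODUCTS.

`kerPoly V Q m = ∏_{k=1}^m (X - x(k • Q))`: the kernel polynomial of the cyclic subgroup `⟨Q⟩` of odd
order `p = 2m + 1`.

* `kerPoly_sq`: `kerPoly² = ∏_{k=1}^{p-1} (X - x(k • Q))`;
* `map_kerPoly_eq`: if `f(Q) ∈ ⟨Q⟩` (`f : K →ₐ[R] K`, `p` prime, `2 ≠ 0`) then `f` fixes `kerPoly`
  [NO Gauss-lemma combinatorics: `(f kerPoly)² = kerPoly²` by the full-kernel reindexing, and both
  are monic];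
* over `ℚ ⊂ ℚbar`, for a Galois-stable `⟨t⟩`: `kerPoly` has rational coefficients
  (`exists_rat_kerPoly`), hence `∏_{k=1}^m (x(k•t) - c)`, `∏_{k=1}^m (a·x(k•t) + b)` are rational
  for rational `a b c` (`prod_xco_sub_mem`, `prod_mul_xco_add_mem`).
-/
import Mathlib
import Fermat.Agent.MAZ.EF86.Rat
import Fermat.Agent.S12P.VeluDef61.Equivariance
import Fermat.Agent.S12P.VeluDef61.Reindex
import Fermat.Agent.S12P.VeluDef61.HalfSum
import Fermat.Agent.S12P.VeluDef61.Galois

set_option autoImplicit false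
set_option linter.unusedSectionVars false

open WeierstrassCurve Polynomial
open scoped WeierstrassCurve.Affine

noncomputable section

namespace Fermat.Agent.S12P.VeluDef61

open Fermat.Agent.MAZ.ModInv Fermat.Agent.S12P.VeluDef51

/-! ### Product versions of the reindexing lemmas -/

section GeneralProd

variable {G : Type*} [AddGroup G] {N : Type*} [CommMonoid N]

theorem prod_Ico_nsmul_nsmul (g : G → N) {Q : G} {p : ℕ} (hp : p.Prime) (hQ : p • Q = 0) {j : ℕ}
    (hj : ¬ p ∣ j) :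
    ∏ k ∈ Finset.Ico 1 p, g (k • (j • Q)) = ∏ k ∈ Finset.Ico 1 p, g (k • Q) := by
  have h := sum_Ico_nsmul_nsmul (M := Additive N) (fun P => Additive.ofMul (g P)) hp hQ hj
  have h' := congrArg Additive.toMul h
  simpa only [toMul_sum, toMul_ofMul] using h'

theorem prod_Ico_eq_prod_half (g : G → N) {Q : G} {m : ℕ} (hQ : (2 * m + 1) • Q = 0) :
    ∏ k ∈ Finset.Ico 1 (2 * m + 1), g (k • Q) =
      ∏ k ∈ Finset.Ico 1 (m + 1), (g (k • Q) * g (-(k • Q))) := by
  have h := sum_Ico_eq_sum_half (M := Additive N) (fun P => Additive.ofMul (g P)) hQ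
  have h' := congrArg Additive.toMul h
  simpa only [toMul_sum, toMul_ofMul, toMul_add] using h'

end GeneralProd

/-! ### The kernel polynomial -/

section KerPoly

variable {F : Type*} [Field F] [DecidableEq F] (V : WeierstrassCurve F)

/-- The kernel polynomial `∏_{k=1}^m (X - x(k • Q))`. -/
def kerPoly (Q : V.toAffine.Point) (m : ℕ) : F[X] :=
  ∏ k ∈ Finset.Ico 1 (m + 1), (X - C (xco V (k • Q)))

theorem kerPoly_monic (Q : V.toAffine.Point) (m : ℕ) : (kerPoly V Q m).Monic :=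
  monic_prod_of_monic _ _ fun _ _ => monic_X_sub_C _

theorem kerPoly_sq {Q : V.toAffine.Point} {m : ℕ} (hQ : (2 * m + 1) • Q = 0) :
    kerPoly V Q m ^ 2 = ∏ k ∈ Finset.Ico 1 (2 * m + 1), (X - C (xco V (k • Q))) := by
  rw [prod_Ico_eq_prod_half (fun P => (X - C (xco V P) : F[X])) hQ, kerPoly, ← Finset.prod_pow]
  refine Finset.prod_congr rfl fun k _ => ?_
  rw [xco_neg, sq]

theorem eval_kerPoly (Q : V.toAffine.Point) (m : ℕ) (c : F) :
    (kerPoly V Q m).eval c = ∏ k ∈ Finset.Ico 1 (m + 1), (c - xco V (k • Q)) := by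
  rw [kerPoly, eval_prod]
  refine Finset.prod_congr rfl fun k _ => ?_
  rw [eval_sub, eval_X, eval_C]

theorem prod_xco_sub_eq (Q : V.toAffine.Point) (m : ℕ) (c : F) :
    ∏ k ∈ Finset.Ico 1 (m + 1), (xco V (k • Q) - c) = (-1) ^ m * (kerPoly V Q m).eval c := by
  rw [eval_kerPoly]
  have h : ∀ k ∈ Finset.Ico 1 (m + 1), xco V (k • Q) - c = -1 * (c - xco V (k • Q)) := by
    intro k _; ring
  rw [Finset.prod_congr rfl h, Finset.prod_mul_distrib, Finset.prod_const, Nat.card_Ico]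
  simp

end KerPoly

/-! ### Invariance under a field homomorphism stabilising the kernel -/

section Invariance

variable {R : Type*} [CommRing R] {W₀ : WeierstrassCurve R}
variable {K : Type*} [Field K] [DecidableEq K] [Algebra R K]

theorem map_kerPoly (f : K →ₐ[R] K) (Q : (W₀⁄K).Point) (m : ℕ) :
    (kerPoly (W₀.baseChange K) Q m).map (f : K →+* K) =
      kerPoly (W₀.baseChange K) (Affine.Point.map f Q) m := by
  rw [kerPoly, kerPoly, Polynomial.map_prod]
  refine Finset.prod_congr rfl fun k _ => ?_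
  rw [Polynomial.map_sub, map_X, map_C, ← map_nsmul, xco_map]
  rfl

/-- **The kernel polynomial of a stable cyclic subgroup of odd prime order is invariant.** -/
theorem map_kerPoly_eq (f : K →ₐ[R] K) {Q : (W₀⁄K).Point} {m : ℕ} (hp : (2 * m + 1).Prime)
    (hQ : (2 * m + 1) • Q = 0) (hQ0 : Q ≠ 0)
    (hf : Affine.Point.map f Q ∈ AddSubgroup.zmultiples Q) (h2 : (2 : K) ≠ 0) :
    (kerPoly (W₀.baseChange K) Q m).map (f : K →+* K) = kerPoly (W₀.baseChange K) Q m := by
  obtain ⟨j, hj, hfj⟩ := exists_map_eq_nsmul f hp hQ hQ0 hf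
  have hQ' : (2 * m + 1) • Affine.Point.map f Q = 0 := by rw [← map_nsmul, hQ, map_zero]
  have hsq : ((kerPoly (W₀.baseChange K) Q m).map (f : K →+* K)) ^ 2 =
      kerPoly (W₀.baseChange K) Q m ^ 2 := by
    rw [map_kerPoly, kerPoly_sq _ hQ', kerPoly_sq _ hQ, hfj]
    exact prod_Ico_nsmul_nsmul (fun P => (X - C (xco (W₀.baseChange K) P) : K[X])) hp hQ hj
  rcases sq_eq_sq_iff_eq_or_eq_neg.mp hsq with h | h
  · exact h
  · exfalso
    have h1 : ((kerPoly (W₀.baseChange K) Q m).map (f : K →+* K)).leadingCoeff = 1 :=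
      (kerPoly_monic _ Q m).map _
    rw [h, leadingCoeff_neg, (kerPoly_monic _ Q m).leadingCoeff] at h1
    apply h2
    have : (2 : K) = 1 - (-1) := by ring
    rw [this, h1, sub_self]

end Invariance

/-! ### Rationality over `ℚ ⊂ ℚbar` -/

section Rational

open Fermat.Agent.MAZ.EF86.Rat

local notation "Qb" => AlgebraicClosure ℚ

variable {W₀ : WeierstrassCurve ℚ} {t : (W₀⁄Qb).Point} {m : ℕ}
  (hp : (2 * m + 1).Prime) (ht : (2 * m + 1) • t = 0) (ht0 : t ≠ 0)
  (hstab : ∀ σ : Qb ≃ₐ[ℚ] Qb, σ • t ∈ AddSubgroup.zmultiples t)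

include hp ht ht0 hstab

/-- **The kernel polynomial of a Galois-stable cyclic subgroup of odd prime order has rational
coefficients.** -/
theorem exists_rat_kerPoly :
    ∃ F₀ : ℚ[X], F₀.map (algebraMap ℚ Qb) = kerPoly (W₀.baseChange Qb) t m := by
  have hmem : kerPoly (W₀.baseChange Qb) t m ∈ Polynomial.lifts (algebraMap ℚ Qb) := by
    rw [Polynomial.lifts_iff_coeff_lifts]
    intro n
    have hfix : ∀ σ : Qb ≃ₐ[ℚ] Qb,
        σ ((kerPoly (W₀.baseChange Qb) t m).coeff n) = (kerPoly (W₀.baseChange Qb) t m).coeff n := by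
      intro σ
      have h := map_kerPoly_eq (W₀ := W₀) σ.toAlgHom hp ht ht0 (hstab σ) two_ne_zero
      have h' := congrArg (fun P => P.coeff n) h
      simp only [coeff_map] at h'
      exact h'
    exact mem_ratSub_of_fixed hfix
  exact (Polynomial.mem_lifts _).mp hmem

/-- `∏_{k=1}^m (x(k • t) - c)` is rational for rational `c`. -/
theorem prod_xco_sub_mem (c : ℚ) :
    ∏ k ∈ Finset.Ico 1 (m + 1), (xco (W₀.baseChange Qb) (k • t) - algebraMap ℚ Qb c) ∈
      Set.range (algebraMap ℚ Qb) := by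
  obtain ⟨F₀, hF₀⟩ := exists_rat_kerPoly hp ht ht0 hstab
  refine ⟨(-1) ^ m * F₀.eval c, ?_⟩
  rw [prod_xco_sub_eq, ← hF₀, eval_map, eval₂_at_apply]
  simp

/-- `∏_{k=1}^m (a · x(k • t) + b)` is rational for rational `a`, `b`. -/
theorem prod_mul_xco_add_mem (a b : ℚ) :
    ∏ k ∈ Finset.Ico 1 (m + 1),
        (algebraMap ℚ Qb a * xco (W₀.baseChange Qb) (k • t) + algebraMap ℚ Qb b) ∈
      Set.range (algebraMap ℚ Qb) := by
  rcases eq_or_ne a 0 with rfl | ha
  · refine ⟨b ^ m, ?_⟩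
    simp
  · obtain ⟨r, hr⟩ := prod_xco_sub_mem hp ht ht0 hstab (-(b / a))
    refine ⟨a ^ m * r, ?_⟩
    have ha' : algebraMap ℚ Qb a ≠ 0 := (map_ne_zero (algebraMap ℚ Qb)).mpr ha
    have hterm : ∀ k ∈ Finset.Ico 1 (m + 1),
        algebraMap ℚ Qb a * xco (W₀.baseChange Qb) (k • t) + algebraMap ℚ Qb b =
          algebraMap ℚ Qb a *
            (xco (W₀.baseChange Qb) (k • t) - algebraMap ℚ Qb (-(b / a))) := by
      intro k _
      rw [map_neg, map_div₀]
      field_simp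
      ring
    rw [Finset.prod_congr rfl hterm, Finset.prod_mul_distrib, Finset.prod_const, Nat.card_Ico,
      map_mul, map_pow, hr]
    simp

end Rational

end Fermat.Agent.S12P.VeluDef61
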